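import Fermat.Agent.Igusa.Coeff

/-!
# `ℓ` generates the kernel of the reduced expansion on the two charts

If the reduced expansion of `x` vanishes then `y = x / ℓ` has an integral expansion; writing
`d(j) y = ∑ i < ψ(N), aᵢ(j) j_N ^ i` and descending on `d` with the degree of the modular equation in
characteristic `ℓ` gives `d` prime to `ℓ`, so `y` is integral away from `d` and away from `ℓ`,
hence integral, `ℤ_(ℓ)[s]` being factorial.
-/

set_option autoImplicit false

noncomputable section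

open HahnSeries ModularCurve ModularCurve.IgusaScheme Polynomial

set_option maxHeartbeats 800000

namespace FLTAgent.Igusa

/-- `P ↦ P(x)` with constant coefficients. -/
def evC {R : Type*} [CommRing R] (x : LaurentSeries R) : R[X] →+* LaurentSeries R :=
  eval₂RingHom HahnSeries.C x

theorem evC_C {R : Type*} [CommRing R] (x : LaurentSeries R) (c : R) :
    evC x (Polynomial.C c) = HahnSeries.C c := eval₂_C _ _

theorem evC_eq_aeval {K : Type*} [Field K] (x : LaurentSeries K) (P : K[X]) :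
    evC x P = Polynomial.aeval x P := by
  rw [aeval_def, FLTAgent.ModEq.algebraMap_eq_C]; rfl

theorem coeffMap_evC {R S : Type*} [CommRing R] [CommRing S] (f : R →+* S) (x : LaurentSeries R)
    (P : R[X]) : coeffMap f (evC x P) = evC (coeffMap f x) (P.map f) := by
  have h : (coeffMap f).comp (evC x) = (evC (coeffMap f x)).comp (Polynomial.mapRingHom f) := by
    refine Polynomial.ringHom_ext (fun a => ?_) ?_ <;>
      simp [evC, FLTAgent.ModEq.coeffMap_C]
  exact RingHom.congr_fun h P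

theorem evC_jqModC_injective (K : Type*) [Field K] :
    Function.Injective (evC (jqModC K)) := by
  refine (injective_iff_map_eq_zero _).mpr fun P hP => ?_
  rw [evC_eq_aeval, ← FLTAgent.ModEq.jAt_one_one] at hP
  exact FLTAgent.ModEq.aeval_jAt_eq_zero hP

theorem evC_eq_zero_of_sum {K : Type*} [Field K] {N : ℕ} [NeZero N] (hN : (N : K) ≠ 0)
    (a : ℕ → K[X]) (h : ∑ i ∈ Finset.range (dedekindPsi N),
      evC (jqModC K) (a i) * jqNModC K N ^ i = 0) :
    ∀ i < dedekindPsi N, a i = 0 := by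
  classical
  have hmem : ∀ P : K[X], evC (jqModC K) P ∈ FLTAgent.ModEq.jField K := fun P => by
    rw [evC_eq_aeval]
    exact IntermediateField.algebra_adjoin_le_adjoin K _
      (by rw [Algebra.adjoin_singleton_eq_range_aeval]; exact ⟨P, rfl⟩)
  set G : (FLTAgent.ModEq.jField K)[X] := ∑ i ∈ Finset.range (dedekindPsi N),
    Polynomial.C (⟨_, hmem (a i)⟩ : FLTAgent.ModEq.jField K) * Polynomial.X ^ i with hG
  have hG0 : G = 0 := by
    by_contra hne
    have hroot : Polynomial.aeval (jqNModC K N) G = 0 := by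
      rw [hG, map_sum, ← h]
      refine Finset.sum_congr rfl fun i _ => ?_
      rw [map_mul, map_pow, aeval_X, aeval_C]
      rfl
    have h1 := minpoly.degree_le_of_ne_zero _ _ hne hroot
    rw [Polynomial.degree_eq_natDegree (minpoly.ne_zero (FLTAgent.ModEq.isIntegral_jqN N hN)),
      FLTAgent.ModEq.natDegree_minpoly_jqN N hN] at h1
    have h2 : G.degree < (dedekindPsi N : WithBot ℕ) := by
      refine lt_of_le_of_lt (degree_sum_le _ _) ?_
      refine (Finset.sup_lt_iff (WithBot.bot_lt_coe _)).mpr fun i hi => ?_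
      exact lt_of_le_of_lt (degree_C_mul_X_pow_le _ _)
        (WithBot.coe_lt_coe.mpr (Finset.mem_range.mp hi))
    exact absurd h1 (not_le.mpr h2)
  intro i hi
  have h3 := congrArg (fun q => Polynomial.coeff q i) hG0
  simp only [hG, finsetSum_coeff, coeff_C_mul_X_pow, Polynomial.coeff_zero] at h3
  rw [Finset.sum_ite_eq, if_pos (Finset.mem_range.mpr hi)] at h3
  refine evC_jqModC_injective K ?_
  rw [map_zero]
  exact congrArg Subtype.val h3

section Descent

variable (ℓ : ℕ) [Fact ℓ.Prime]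

set_option quotPrecheck false in
local notation "ℤℓ" => ↥(GaloisRep.ratLocalizedAt ℓ)

theorem exists_eq_C_mul {P : ℤℓ[X]} (h : P.map (red ℓ) = 0) :
    ∃ Q : ℤℓ[X], P = Polynomial.C (ℓ : ℤℓ) * Q := by
  refine (Polynomial.C_dvd_iff_dvd_coeff _ _).mpr fun i => ?_
  rw [← red_eq_zero_iff, ← Polynomial.coeff_map, h, Polynomial.coeff_zero]

theorem natCast_ne_zero : (ℓ : ℤℓ) ≠ 0 := (natCast_irreducible ℓ).ne_zero

theorem exists_descent {N : ℕ} [NeZero N] (hℓN : ¬ ℓ ∣ N) (w : LaurentSeries ℤℓ) (d : ℤℓ[X]) :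
    d ≠ 0 → ∀ a : ℕ → ℤℓ[X], (evC (jqModC ℤℓ) d * w =
      ∑ i ∈ Finset.range (dedekindPsi N), evC (jqModC ℤℓ) (a i) * jqNModC ℤℓ N ^ i) →
    ∃ d' : ℤℓ[X], d'.map (red ℓ) ≠ 0 ∧ ∃ a' : ℕ → ℤℓ[X], evC (jqModC ℤℓ) d' * w =
      ∑ i ∈ Finset.range (dedekindPsi N), evC (jqModC ℤℓ) (a' i) * jqNModC ℤℓ N ^ i := by
  haveI := isPrincipalIdealRing ℓ
  have hN : (N : ZMod ℓ) ≠ 0 := fun h => hℓN ((ZMod.natCast_eq_zero_iff _ _).mp h)
  induction d using (wellFounded_dvdNotUnit (α := ℤℓ[X])).induction with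
  | h d ih =>
    intro hd a hrel
    by_cases h0 : d.map (red ℓ) = 0
    swap
    · exact ⟨d, h0, a, hrel⟩
    have hred := congrArg (coeffMap (red ℓ)) hrel
    rw [map_mul, map_sum, coeffMap_evC, h0, map_zero, zero_mul] at hred
    simp only [map_mul, map_pow, coeffMap_evC, coeffMap_jqModC, coeffMap_jqNModC] at hred
    have ha : ∀ i, ∃ Q : ℤℓ[X], i < dedekindPsi N → a i = Polynomial.C (ℓ : ℤℓ) * Q := by
      intro i
      by_cases hi : i < dedekindPsi N
      · obtain ⟨Q, hQ⟩ := exists_eq_C_mul ℓ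
          (evC_eq_zero_of_sum hN (fun i => (a i).map (red ℓ)) hred.symm i hi)
        exact ⟨Q, fun _ => hQ⟩
      · exact ⟨0, fun h => absurd h hi⟩
    choose a' ha' using ha
    obtain ⟨d', rfl⟩ := exists_eq_C_mul ℓ h0
    have hd' : d' ≠ 0 := right_ne_zero_of_mul hd
    have hlt : DvdNotUnit d' (Polynomial.C (ℓ : ℤℓ) * d') :=
      ⟨hd', Polynomial.C (ℓ : ℤℓ),
        fun h => (natCast_irreducible ℓ).not_isUnit (Polynomial.isUnit_C.mp h), mul_comm _ _⟩
    refine ih d' hlt hd' a' ?_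
    have hne : (HahnSeries.C (ℓ : ℤℓ) : LaurentSeries ℤℓ) ≠ 0 := by
      rw [ne_eq, HahnSeries.C_apply, HahnSeries.single_eq_zero_iff]
      exact natCast_ne_zero ℓ
    refine mul_left_cancel₀ hne ?_
    rw [← mul_assoc, ← evC_C (jqModC ℤℓ), ← map_mul, hrel, Finset.mul_sum]
    refine Finset.sum_congr rfl fun i hi => ?_
    rw [ha' i (Finset.mem_range.mp hi), map_mul, mul_assoc]

theorem exists_C_mul_of_redSeries {z : LaurentSeries ℤℓ} (h : coeffMap (red ℓ) z = 0) :
    ∃ w : LaurentSeries ℤℓ, z = HahnSeries.C (ℓ : ℤℓ) * w := by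
  classical
  have hc : ∀ k, ∃ c : ℤℓ, z.coeff k = ℓ * c ∧ (z.coeff k = 0 → c = 0) := fun k => by
    by_cases h0 : z.coeff k = 0
    · exact ⟨0, by simp [h0], fun _ => rfl⟩
    · obtain ⟨c, hc⟩ := (red_eq_zero_iff ℓ (z.coeff k)).mp (by
        simpa [coeffMap_coeff] using congrArg (fun q => HahnSeries.coeff q k) h)
      exact ⟨c, hc, fun h1 => absurd h1 h0⟩
  choose c hc hc0 using hc
  refine ⟨⟨c, z.isPWO_support.mono fun k hk => fun h1 => hk (hc0 k h1)⟩, ?_⟩
  ext k
  rw [HahnSeries.C_apply, HahnSeries.coeff_single_zero_mul, hc]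

end Descent

section Chart

variable (ℓ : ℕ) [Fact ℓ.Prime] (N : ℕ) [NeZero N]

set_option quotPrecheck false in
local notation "ℤℓ" => ↥(GaloisRep.ratLocalizedAt ℓ)

set_option quotPrecheck false in
local notation "F" => ↥(modularFunctionFieldFull N)

/-- `j_N` as a function on `X₀(N)`. -/
def jNElt : F := ⟨qExpand ℚ N jq, jqd_mem_full N dvd_rfl⟩

theorem coe_jNElt : (jNElt N : LaurentSeries ℚ) = jqNModC ℚ N := by
  rw [jqNModC_rat]; rfl

theorem jNElt_mem_chartAlgFin : jNElt N ∈ chartAlgFin N ℓ := by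
  rw [mem_chartAlg_iff]
  set B := Algebra.adjoin ℤℓ ({jFull N} : Set F)
  set s : B := ⟨jFull N, Algebra.subset_adjoin rfl⟩
  let data := FLTAgent.ModEq.modularPolynomialData N
  refine ⟨data.Φ.map (FLTAgent.ModEq.evalAt s), data.monic.map _, ?_⟩
  apply Subtype.val_injective
  show (algebraMap F (LaurentSeries ℚ)) _ = (algebraMap F (LaurentSeries ℚ)) 0
  rw [map_zero, Polynomial.hom_eval₂, eval₂_map, FLTAgent.ModEq.comp_evalAt,
    eval₂_eq_eval_map, RingHom.comp_apply]
  rw [show (algebraMap F (LaurentSeries ℚ)) (jNElt N) = jqNModC ℚ N from coe_jNElt N,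
    show (algebraMap F (LaurentSeries ℚ)) (algebraMap B F s) = jqModC ℚ by rw [jqModC_rat]; rfl]
  exact FLTAgent.ModEq.eval_modularPolynomial ℚ data

/-- `z` is a ratio of integral polynomials in `j`. -/
def IsRatio (z : LaurentSeries ℚ) : Prop :=
  ∃ d a : ℤℓ[X], d ≠ 0 ∧ incl ℓ (evC (jqModC ℤℓ) d) * z = incl ℓ (evC (jqModC ℤℓ) a)

theorem evC_ne_zero {d : ℤℓ[X]} (hd : d ≠ 0) : incl ℓ (evC (jqModC ℤℓ) d) ≠ 0 := by
  rw [coeffMap_evC, coeffMap_jqModC]
  rw [map_ne_zero_iff _ (evC_jqModC_injective ℚ)]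
  exact (Polynomial.map_ne_zero_iff Subtype.val_injective).mpr hd

theorem isRatio_of_mem {z : LaurentSeries ℚ} (hz : z ∈ FLTAgent.ModEq.jField ℚ) :
    IsRatio ℓ z := by
  induction hz using IntermediateField.adjoin_induction with
  | mem y hy =>
    obtain rfl := Set.mem_singleton_iff.mp hy
    refine ⟨1, Polynomial.X, one_ne_zero, ?_⟩
    rw [map_one, map_one, one_mul, coeffMap_evC, Polynomial.map_X, coeffMap_jqModC]
    simp [evC]
  | algebraMap c =>
    refine ⟨Polynomial.C ((c.den : ℕ) : ℤℓ), Polynomial.C ((c.num : ℤ) : ℤℓ), ?_, ?_⟩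
    · rw [ne_eq, Polynomial.C_eq_zero]
      intro h0
      exact c.den_ne_zero (by simpa using congrArg Subtype.val h0)
    · rw [evC_C, evC_C, incl_C, incl_C, FLTAgent.ModEq.algebraMap_eq_C, ← map_mul]
      congr 1
      simp [Rat.den_mul_eq_num]
  | add y y' _ _ h h' =>
    obtain ⟨d, a, hd, e⟩ := h
    obtain ⟨d', a', hd', e'⟩ := h'
    refine ⟨d * d', a * d' + a' * d, mul_ne_zero hd hd', ?_⟩
    simp only [map_add, map_mul, ← e, ← e']; ring
  | inv y _ h =>
    obtain ⟨d, a, hd, e⟩ := h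
    rcases eq_or_ne y 0 with rfl | hy
    · exact ⟨1, 0, one_ne_zero, by simp⟩
    refine ⟨a, d, ?_, ?_⟩
    · rintro rfl
      simp only [map_zero, mul_eq_zero, hy, or_false] at e
      exact evC_ne_zero ℓ hd e
    · rw [← e, mul_assoc, mul_inv_cancel₀ hy, mul_one]
  | mul y y' _ _ h h' =>
    obtain ⟨d, a, hd, e⟩ := h
    obtain ⟨d', a', hd', e'⟩ := h'
    refine ⟨d * d', a * a', mul_ne_zero hd hd', ?_⟩
    simp only [map_mul, ← e, ← e']; ring

theorem exists_presentation (z : F) :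
    ∃ d : ℤℓ[X], d ≠ 0 ∧ ∃ a : ℕ → ℤℓ[X], incl ℓ (evC (jqModC ℤℓ) d) * (z : LaurentSeries ℚ) =
      incl ℓ (∑ i ∈ Finset.range (dedekindPsi N),
        evC (jqModC ℤℓ) (a i) * jqNModC ℤℓ N ^ i) := by
  classical
  have hN : (N : ℚ) ≠ 0 := Nat.cast_ne_zero.mpr (NeZero.ne N)
  have hint := FLTAgent.ModEq.isIntegral_jqN (K := ℚ) N hN
  set L := FLTAgent.ModEq.jField ℚ
  have hz : (z : LaurentSeries ℚ) ∈ IntermediateField.adjoin L {jqNModC ℚ N} := by
    have h1 : (z : LaurentSeries ℚ) ∈ modularFunctionField N :=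
      (FLTAgent.ModEq.modularFunctionFieldFull_eq N) ▸ z.2
    suffices H : ∀ u ∈ modularFunctionField N, u ∈ IntermediateField.adjoin L {jqNModC ℚ N} from
      H _ h1
    intro u hu
    unfold modularFunctionField at hu
    induction hu using IntermediateField.adjoin_induction with
    | mem y hy =>
      rcases hy with rfl | rfl
      · rw [← jqModC_rat]
        exact IntermediateField.algebraMap_mem (IntermediateField.adjoin L {jqNModC ℚ N})
          (⟨jqModC ℚ, IntermediateField.mem_adjoin_simple_self ℚ _⟩ : L)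
      · show jqN N ∈ _
        rw [← jqNModC_rat]
        exact IntermediateField.mem_adjoin_simple_self L _
    | algebraMap c => rw [eq_ratCast]; exact SubfieldClass.ratCast_mem _ c
    | add y y' _ _ h h' => exact add_mem h h'
    | inv y _ h => exact inv_mem h
    | mul y y' _ _ h h' => exact mul_mem h h'
  rw [← IntermediateField.mem_toSubalgebra,
    IntermediateField.adjoin_simple_toSubalgebra_of_isAlgebraic hint.isAlgebraic,
    Algebra.adjoin_singleton_eq_range_aeval] at hz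
  obtain ⟨r₀, hr₀⟩ := hz
  set r := r₀ %ₘ minpoly L (jqNModC ℚ N)
  have hr : Polynomial.aeval (jqNModC ℚ N) r = (z : LaurentSeries ℚ) := by
    rw [Polynomial.aeval_modByMonic_eq_self_of_root (minpoly.aeval _ _)]; exact hr₀
  have hdeg : r.natDegree < dedekindPsi N := by
    rw [← FLTAgent.ModEq.natDegree_minpoly_jqN N hN]
    refine Polynomial.natDegree_modByMonic_lt _ (minpoly.monic hint) fun h1 => ?_
    exact minpoly.not_isUnit L (jqNModC ℚ N) (h1 ▸ isUnit_one)
  rw [Polynomial.aeval_eq_sum_range' hdeg] at hr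
  suffices H : ∀ k, ∃ d : ℤℓ[X], d ≠ 0 ∧ ∃ a : ℕ → ℤℓ[X],
      incl ℓ (evC (jqModC ℤℓ) d) * (∑ i ∈ Finset.range k, r.coeff i • jqNModC ℚ N ^ i) =
      incl ℓ (∑ i ∈ Finset.range k, evC (jqModC ℤℓ) (a i) * jqNModC ℤℓ N ^ i) by
    obtain ⟨d, hd, a, ha⟩ := H (dedekindPsi N)
    exact ⟨d, hd, a, hr ▸ ha⟩
  intro k
  induction k with
  | zero => exact ⟨1, one_ne_zero, 0, by simp⟩
  | succ k ih =>
    obtain ⟨d, hd, a, ha⟩ := ih
    obtain ⟨d', a', hd', e⟩ := isRatio_of_mem ℓ (r.coeff k).2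
    refine ⟨d * d', mul_ne_zero hd hd', fun i => if i = k then d * a' else d' * a i, ?_⟩
    rw [Finset.sum_range_succ, Finset.sum_range_succ, map_add, mul_add]
    dsimp only
    rw [if_pos rfl]
    congr 1
    · rw [map_mul, map_mul, mul_right_comm, ha, map_sum, map_sum, Finset.sum_mul]
      refine Finset.sum_congr rfl fun i hi => ?_
      rw [if_neg (Finset.mem_range.mp hi).ne]
      simp only [map_mul]; ring
    · rw [Algebra.smul_def, IntermediateField.algebraMap_apply]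
      simp only [map_mul, map_pow, ← e, coeffMap_jqNModC]; ring

/-- Step one: an element with integral expansion is integral away from a polynomial prime to
`ℓ`. -/
theorem exists_denom (hℓN : ¬ ℓ ∣ N) (y : F) (hy : (y : LaurentSeries ℚ) ∈ (incl ℓ).range) :
    ∃ d : ℤℓ[X], d.map (red ℓ) ≠ 0 ∧ Polynomial.aeval (jFull N) d * y ∈ chartAlgFin N ℓ := by
  obtain ⟨w, hw⟩ := hy
  obtain ⟨d₀, hd₀, a₀, h₀⟩ := exists_presentation ℓ N y
  rw [← hw, ← map_mul] at h₀
  obtain ⟨d, hd, a, h⟩ := exists_descent ℓ hℓN w d₀ hd₀ a₀ (incl_injective ℓ h₀)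
  refine ⟨d, hd, ?_⟩
  have hev : ∀ P : ℤℓ[X], incl ℓ (evC (jqModC ℤℓ) P) =
      ((Polynomial.aeval (jFull N) P : F) : LaurentSeries ℚ) := by
    intro P
    rw [show ((Polynomial.aeval (jFull N) P : F) : LaurentSeries ℚ) =
      algebraMap F (LaurentSeries ℚ) (Polynomial.aeval (jFull N) P) from rfl,
      aeval_def, Polynomial.hom_eval₂, coeffMap_evC, coeffMap_jqModC]
    show Polynomial.eval₂ (HahnSeries.C : ℚ →+* LaurentSeries ℚ) _ _ = _
    rw [eval₂_map]
    congr 1
  have heq : Polynomial.aeval (jFull N) d * y =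
      ∑ i ∈ Finset.range (dedekindPsi N), Polynomial.aeval (jFull N) (a i) * jNElt N ^ i := by
    apply (algebraMap F (LaurentSeries ℚ)).injective
    have h' := congrArg (incl ℓ) h
    rw [map_mul, hw, map_sum, hev] at h'
    rw [map_mul, map_sum]
    refine h'.trans (Finset.sum_congr rfl fun i _ => ?_)
    rw [map_mul, map_pow, map_mul, map_pow, hev, coeffMap_jqNModC]
    rw [show algebraMap F (LaurentSeries ℚ) (jNElt N) = jqNModC ℚ N from coe_jNElt N]
    rfl
  rw [heq]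
  refine sum_mem fun i _ => mul_mem ?_ (pow_mem (jNElt_mem_chartAlgFin ℓ N) i)
  refine adjoin_le_chartAlg N ℓ _ ?_
  rw [Algebra.adjoin_singleton_eq_range_aeval]
  exact ⟨a i, rfl⟩

theorem exists_denom_inv (hℓN : ¬ ℓ ∣ N) (y : F) (hy : (y : LaurentSeries ℚ) ∈ (incl ℓ).range) :
    ∃ e : ℤℓ[X], e.map (red ℓ) ≠ 0 ∧
      Polynomial.aeval (jFull N)⁻¹ e * y ∈ chartAlgInf N ℓ := by
  obtain ⟨d, hd, hmem⟩ := exists_denom ℓ N hℓN y hy
  have hz : Polynomial.aeval (jFull N) d * y ∈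
      chartAlg N ℓ (insert (jFull N)⁻¹⁻¹ {(jFull N)⁻¹}) := by
    rw [inv_inv]
    exact chartAlg_mono N ℓ (Set.singleton_subset_iff.mpr (Set.mem_insert _ _)) hmem
  have hj := jFull_ne_zero N
  obtain ⟨m, hm⟩ := exists_pow_mul_mem_chartAlg (Set.mem_singleton _) (inv_ne_zero hj) hz
  refine ⟨Polynomial.X ^ m * d.reverse, ?_, ?_⟩
  · rw [Polynomial.map_mul, Polynomial.map_pow, Polynomial.map_X]
    refine mul_ne_zero (pow_ne_zero _ Polynomial.X_ne_zero) fun h0 => hd ?_
    ext i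
    have := congrArg (fun q => Polynomial.coeff q (Polynomial.revAt d.natDegree i)) h0
    simpa [Polynomial.coeff_map, Polynomial.coeff_reverse] using this
  · letI := invertibleOfNonzero hj
    have hrev := Polynomial.eval₂_reverse_mul_pow (algebraMap ℤℓ F) (jFull N) d
    rw [invOf_eq_inv, ← aeval_def, ← aeval_def] at hrev
    have : Polynomial.aeval (jFull N)⁻¹ (Polynomial.X ^ m * d.reverse) * y =
        ((jFull N)⁻¹) ^ d.natDegree *
          ((jFull N)⁻¹ ^ m * (Polynomial.aeval (jFull N) d * y)) := by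
      rw [map_mul, map_pow, aeval_X, ← hrev]
      generalize Polynomial.aeval (jFull N)⁻¹ d.reverse = r
      rw [show ((jFull N)⁻¹) ^ d.natDegree *
          ((jFull N)⁻¹ ^ m * (r * jFull N ^ d.natDegree * y)) =
          (jFull N)⁻¹ ^ m * r * y * ((jFull N)⁻¹ * jFull N) ^ d.natDegree by rw [mul_pow]; ring,
        inv_mul_cancel₀ hj, one_pow, mul_one]
    rw [this]
    exact Subalgebra.mul_mem _ (Subalgebra.pow_mem _
      (subset_chartAlg N ℓ {(jFull N)⁻¹} (Set.mem_singleton _)) _) hm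

theorem aeval_injective {s : F} (hs : s = jFull N ∨ s = (jFull N)⁻¹) :
    Function.Injective ⇑(Polynomial.aeval (R := ℤℓ) s) := by
  have hj : Transcendental ℚ (jFull N) := by
    rintro ⟨P, hne, h⟩
    have h1 := congrArg (algebraMap F (LaurentSeries ℚ)) h
    rw [map_zero, aeval_def, Polynomial.hom_eval₂,
      RingHom.ext_rat ((algebraMap F (LaurentSeries ℚ)).comp (algebraMap ℚ F))
        (algebraMap ℚ (LaurentSeries ℚ)),
      show algebraMap F (LaurentSeries ℚ) (jFull N) = FLTAgent.ModEq.jAt (1 : ℚˣ) 1 by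
        rw [FLTAgent.ModEq.jAt_one_one, jqModC_rat]; rfl, ← aeval_def] at h1
    exact hne (FLTAgent.ModEq.aeval_jAt_eq_zero h1)
  have hts : Transcendental ℚ s := by
    rcases hs with rfl | rfl
    · exact hj
    · exact fun h => hj (by simpa using h.inv)
  intro P Q h
  rw [← sub_eq_zero]
  by_contra hne
  exact hts (IsAlgebraic.extendScalars (R := ℤℓ) (S := ℚ) Subtype.val_injective
    ⟨P - Q, hne, by rw [map_sub, h, sub_self]⟩)

/-- Step two: `y` integral away from `ℓ` and away from `e` prime to `ℓ` is integral. -/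
theorem mem_of_two_denom {s : F} (hs : s = jFull N ∨ s = (jFull N)⁻¹) {y : F} {e : ℤℓ[X]}
    (he : e.map (red ℓ) ≠ 0) (h1 : (ℓ : F) * y ∈ chartAlg N ℓ {s})
    (h2 : Polynomial.aeval s e * y ∈ chartAlg N ℓ {s}) : y ∈ chartAlg N ℓ {s} := by
  haveI := isPrincipalIdealRing ℓ
  have hinj := aeval_injective ℓ N hs
  letI : Algebra ℤℓ[X] F := (Polynomial.aeval (R := ℤℓ) s).toRingHom.toAlgebra
  set Kf := FractionRing ℤℓ[X]
  have hinj' : Function.Injective (algebraMap ℤℓ[X] F) := hinj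
  letI : Algebra Kf F := (IsFractionRing.lift (K := Kf) hinj').toAlgebra
  haveI : IsScalarTower ℤℓ[X] Kf F :=
    IsScalarTower.of_algebraMap_eq fun x => (IsFractionRing.lift_algebraMap hinj' x).symm
  set B₀ := Algebra.adjoin ℤℓ ({s} : Set F)
  let φ : ℤℓ[X] →+* B₀ := (Polynomial.aeval (⟨s, Algebra.subset_adjoin rfl⟩ : B₀)).toRingHom
  have hφ : (algebraMap B₀ F).comp φ = algebraMap ℤℓ[X] F := by
    refine Polynomial.ringHom_ext (fun a => ?_) ?_ <;>
      simp [φ, RingHom.algebraMap_toAlgebra]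
  have hφs : Function.Surjective φ := fun b => by
    have hb : (b : F) ∈ (Polynomial.aeval (R := ℤℓ) s).range := by
      rw [← Algebra.adjoin_singleton_eq_range_aeval]; exact b.2
    obtain ⟨P, hP⟩ := hb
    exact ⟨P, Subtype.ext ((RingHom.congr_fun hφ P).trans hP)⟩
  have hint : ∀ u ∈ chartAlg N ℓ {s}, IsIntegral ℤℓ[X] u := by
    intro u hu
    obtain ⟨p, hp, hroot⟩ := (mem_chartAlg_iff N ℓ).mp hu
    obtain ⟨q, hq, -, hqm⟩ := Polynomial.lifts_and_natDegree_eq_and_monic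
      ((Polynomial.mem_lifts p).mpr (Polynomial.map_surjective φ hφs p)) hp
    exact ⟨q, hqm, by rw [← hφ, ← eval₂_map, hq]; exact hroot⟩
  have hℓ0 : (Polynomial.C (ℓ : ℤℓ)) ≠ 0 := Polynomial.C_ne_zero.mpr (natCast_ne_zero ℓ)
  have hℓF : algebraMap ℤℓ[X] F (Polynomial.C (ℓ : ℤℓ)) = (ℓ : F) := by
    simp [RingHom.algebraMap_toAlgebra]
  have hℓy := hint _ h1
  rw [← hℓF] at hℓy
  have hy : IsIntegral Kf y := by
    have hne : algebraMap ℤℓ[X] Kf (Polynomial.C (ℓ : ℤℓ)) ≠ 0 :=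
      (map_ne_zero_iff _ (IsFractionRing.injective ℤℓ[X] Kf)).mpr hℓ0
    have h := (hℓy.tower_top (A := Kf)).smul
      ((algebraMap ℤℓ[X] Kf (Polynomial.C (ℓ : ℤℓ)))⁻¹)
    rwa [Algebra.smul_def, ← mul_assoc, IsScalarTower.algebraMap_apply ℤℓ[X] Kf F, ← map_mul,
      inv_mul_cancel₀ hne, map_one, one_mul] at h
  set p := minpoly Kf y
  have hpm : p.Monic := minpoly.monic hy
  have key : ∀ c : ℤℓ[X], c ≠ 0 → IsIntegral ℤℓ[X] (algebraMap ℤℓ[X] F c * y) →
      ∀ i, ∃ b, algebraMap ℤℓ[X] Kf b =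
        p.coeff i * algebraMap ℤℓ[X] Kf c ^ (p.natDegree - i) := by
    intro c hc hcy i
    set γ := algebraMap ℤℓ[X] Kf c
    have hγ : γ ≠ 0 := (map_ne_zero_iff _ (IsFractionRing.injective ℤℓ[X] Kf)).mpr hc
    have hcy' : IsIntegral Kf (algebraMap Kf F γ * y) := by
      rw [← IsScalarTower.algebraMap_apply]; exact hcy.tower_top
    have hroot : Polynomial.aeval (algebraMap Kf F γ * y) (p.scaleRoots γ) = 0 :=
      Polynomial.scaleRoots_aeval_eq_zero (minpoly.aeval Kf y)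
    have hq : p.scaleRoots γ = minpoly Kf (algebraMap Kf F γ * y) := by
      refine Polynomial.eq_of_monic_of_dvd_of_natDegree_le (minpoly.monic hcy')
        ((Polynomial.monic_scaleRoots_iff _).mpr hpm) (minpoly.dvd _ _ hroot) ?_
      rw [Polynomial.natDegree_scaleRoots]
      set q := minpoly Kf (algebraMap Kf F γ * y)
      have hr2 : Polynomial.aeval y (q.scaleRoots γ⁻¹) = 0 := by
        have h := Polynomial.scaleRoots_aeval_eq_zero (r := γ⁻¹)
          (minpoly.aeval Kf (algebraMap Kf F γ * y))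
        rwa [← mul_assoc, ← map_mul, inv_mul_cancel₀ hγ, map_one, one_mul] at h
      refine le_trans (Polynomial.natDegree_le_of_dvd (minpoly.dvd _ _ hr2) ?_)
        (le_of_eq (Polynomial.natDegree_scaleRoots _ _))
      exact ((Polynomial.monic_scaleRoots_iff _).mpr (minpoly.monic hcy')).ne_zero
    refine ⟨(minpoly ℤℓ[X] (algebraMap ℤℓ[X] F c * y)).coeff i, ?_⟩
    rw [← Polynomial.coeff_map, ← minpoly.isIntegrallyClosed_eq_field_fractions' Kf hcy,
      ← Polynomial.coeff_scaleRoots, hq, IsScalarTower.algebraMap_apply ℤℓ[X] Kf F]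
  have he0 : e ≠ 0 := fun h => he (by rw [h, Polynomial.map_zero])
  have hpr : Prime (Polynomial.C (ℓ : ℤℓ)) :=
    Polynomial.prime_C_iff.mpr (natCast_irreducible ℓ).prime
  have hnd : ¬ Polynomial.C (ℓ : ℤℓ) ∣ e := by
    rintro ⟨q, rfl⟩
    exact he (by simp)
  have hcoef : ∀ i, ∃ b, algebraMap ℤℓ[X] Kf b = p.coeff i := by
    intro i
    obtain ⟨b, hb⟩ := key _ hℓ0 hℓy i
    obtain ⟨b', hb'⟩ := key e he0 (hint _ h2) i
    set k := p.natDegree - i
    have h : b * e ^ k = b' * Polynomial.C (ℓ : ℤℓ) ^ k := by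
      apply IsFractionRing.injective ℤℓ[X] Kf
      simp only [map_mul, map_pow, hb, hb']; ring
    obtain ⟨c, rfl⟩ := hpr.pow_dvd_of_dvd_mul_right k
      (fun h' => hnd (hpr.dvd_of_dvd_pow h')) ⟨b', h.trans (mul_comm _ _)⟩
    refine ⟨c, mul_right_cancel₀ (pow_ne_zero k
      ((map_ne_zero_iff _ (IsFractionRing.injective ℤℓ[X] Kf)).mpr hℓ0)) ?_⟩
    rw [← hb, map_mul, map_pow]; ring
  obtain ⟨q, hq, -, hqm⟩ := Polynomial.lifts_and_natDegree_eq_and_monic
    ((Polynomial.lifts_iff_coeff_lifts p).mpr fun i => hcoef i) hpm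
  rw [mem_chartAlg_iff]
  refine ⟨q.map φ, hqm.map _, ?_⟩
  rw [eval₂_map, hφ, ← aeval_def, ← Polynomial.aeval_map_algebraMap Kf, hq]
  exact minpoly.aeval Kf y

/-- The kernel of the reduced expansion on either chart is generated by `ℓ`. -/
theorem exists_smul_of_redSeries_eq_zero (hℓN : ¬ ℓ ∣ N) {s : F}
    (hs : s = jFull N ∨ s = (jFull N)⁻¹) (hS : Admissible ℓ ({s} : Set F))
    (x : chartAlg N ℓ ({s} : Set F)) (hx : redSeries ℓ hS x = 0) :
    ∃ y : chartAlg N ℓ ({s} : Set F), x = (ℓ : ℤℓ) • y := by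
  obtain ⟨w, hw⟩ := exists_C_mul_of_redSeries ℓ hx
  have hℓ : (ℓ : F) ≠ 0 := by
    rw [← map_natCast (algebraMap ℚ F), _root_.map_ne_zero]
    exact_mod_cast (Fact.out : ℓ.Prime).ne_zero
  have hyser : ((((x : F) / (ℓ : F) : F)) : LaurentSeries ℚ) = incl ℓ w := by
    have hL : algebraMap F (LaurentSeries ℚ) (ℓ : F) ≠ 0 := (_root_.map_ne_zero _).mpr hℓ
    show algebraMap F (LaurentSeries ℚ) ((x : F) / (ℓ : F)) = _
    rw [map_div₀, div_eq_iff hL,
      show algebraMap F (LaurentSeries ℚ) (x : F) = incl ℓ (series ℓ hS x) from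
        (incl_series ℓ hS x).symm, hw, map_mul, map_natCast HahnSeries.C, map_natCast (incl ℓ),
      map_natCast (algebraMap F (LaurentSeries ℚ)), mul_comm]
  have hℓy : (ℓ : F) * ((x : F) / ℓ) ∈ chartAlg N ℓ {s} := by
    rw [mul_div_cancel₀ _ hℓ]; exact x.2
  have hmem : (x : F) / ℓ ∈ chartAlg N ℓ {s} := by
    rcases hs with hs' | hs'
    · obtain ⟨e, he, h2⟩ := exists_denom ℓ N hℓN _ ⟨w, hyser.symm⟩
      subst hs'
      exact mem_of_two_denom ℓ N (Or.inl rfl) he hℓy h2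
    · obtain ⟨e, he, h2⟩ := exists_denom_inv ℓ N hℓN _ ⟨w, hyser.symm⟩
      subst hs'
      exact mem_of_two_denom ℓ N (Or.inr rfl) he hℓy h2
  refine ⟨⟨_, hmem⟩, Subtype.ext ?_⟩
  rw [Subalgebra.coe_smul, Algebra.smul_def, map_natCast, mul_div_cancel₀ _ hℓ]

end Chart

end FLTAgent.Igusa
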