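import Fermat.Agent.Igusa.RatLoc
import Fermat.Agent.ModEq.Main
import Fermat.Agent.ModEq.Poly
import Fermat.Prelude.Def_ModularCurve_IgusaScheme

/-!
# `ℓ`-integrality of the expansions of the elements of the chart algebras
-/

set_option autoImplicit false

noncomputable section

open HahnSeries ModularCurve ModularCurve.IgusaScheme Polynomial

set_option maxHeartbeats 800000

namespace FLTAgent.Igusa

variable (ℓ : ℕ) [Fact ℓ.Prime]

set_option quotPrecheck false in
local notation "ℤℓ" => ↥(GaloisRep.ratLocalizedAt ℓ)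

/-- Coefficient inclusion `ℤ_(ℓ)((q)) → ℚ((q))`. -/
abbrev incl : LaurentSeries ℤℓ →+* LaurentSeries ℚ :=
  coeffMap (GaloisRep.ratLocalizedAt ℓ).subtype

theorem incl_injective : Function.Injective (incl ℓ) :=
  FLTAgent.ModEq.coeffMap_injective _ Subtype.val_injective

theorem isIntegrallyClosed_series : IsIntegrallyClosed (LaurentSeries ℤℓ) := by
  haveI := isPrincipalIdealRing ℓ
  exact isIntegrallyClosed_of_isLocalization (LaurentSeries ℤℓ)
    (Submonoid.powers (PowerSeries.X : PowerSeries ℤℓ))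
    (powers_le_nonZeroDivisors_of_noZeroDivisors PowerSeries.X_ne_zero)

/-- A ratio of integral series which is integral over the integral series is an integral series. -/
theorem mem_range_of_integral {z : LaurentSeries ℚ}
    (hfrac : ∃ a b : LaurentSeries ℤℓ, b ≠ 0 ∧ z * incl ℓ b = incl ℓ a)
    (hint : (incl ℓ).IsIntegralElem z) : z ∈ (incl ℓ).range := by
  haveI := isIntegrallyClosed_series ℓ
  set W := LaurentSeries ℤℓ
  letI : Algebra W (LaurentSeries ℚ) := (incl ℓ).toAlgebra
  have hinj : Function.Injective (algebraMap W (LaurentSeries ℚ)) := incl_injective ℓ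
  let f : FractionRing W →ₐ[W] LaurentSeries ℚ :=
    IsFractionRing.liftAlgHom (g := Algebra.ofId W (LaurentSeries ℚ)) hinj
  obtain ⟨a, b, hb, hz⟩ := hfrac
  have hb' : incl ℓ b ≠ 0 := (map_ne_zero_iff _ (incl_injective ℓ)).mpr hb
  have hf : f (algebraMap W _ a / algebraMap W _ b) = z := by
    rw [map_div₀, AlgHom.commutes, AlgHom.commutes]
    exact (eq_div_iff hb').mpr hz |>.symm
  have hint' : IsIntegral W (algebraMap W (FractionRing W) a / algebraMap W _ b) := by
    refine (isIntegral_algHom_iff f f.toRingHom.injective).mp ?_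
    rw [hf]; exact hint
  obtain ⟨w, hw⟩ := IsIntegrallyClosed.isIntegral_iff.mp hint'
  exact ⟨w, by rw [← hf, ← hw, AlgHom.commutes]; rfl⟩

/-- The series of `1/j`. -/
def jInvSer (R : Type*) [CommRing R] : LaurentSeries R :=
  HahnSeries.single (1 : ℤ) 1 *
    HahnSeries.ofPowerSeries ℤ R ((PowerSeries.invOfUnit jNum 1).map (Int.castRingHom R))

theorem jqModC_mul_jInvSer (R : Type*) [CommRing R] : jqModC R * jInvSer R = 1 := by
  rw [jqModC, jInvSer, mul_mul_mul_comm, HahnSeries.single_mul_single, ← map_mul, ← map_mul,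
    PowerSeries.mul_invOfUnit _ _ (by rw [constantCoeff_jNum]; rfl)]
  simp

theorem coeffMap_jInvSer {R S : Type*} [CommRing R] [CommRing S] (f : R →+* S) :
    coeffMap f (jInvSer R) = jInvSer S := by
  rw [jInvSer, jInvSer, map_mul, coeffMap_single, map_one, coeffMap_ofPowerSeries,
    ← RingHom.comp_apply (PowerSeries.map f), ← PowerSeries.map_comp,
    RingHom.ext_int (f.comp (Int.castRingHom R)) (Int.castRingHom S)]

theorem jInvSer_rat : jInvSer ℚ = jq⁻¹ := by
  refine eq_inv_of_mul_eq_one_left ?_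
  rw [mul_comm, ← jqModC_rat]
  exact jqModC_mul_jInvSer ℚ

theorem incl_jqModC : incl ℓ (jqModC ℤℓ) = jq := by rw [coeffMap_jqModC, jqModC_rat]

theorem incl_jInvSer : incl ℓ (jInvSer ℤℓ) = jq⁻¹ := by rw [coeffMap_jInvSer, jInvSer_rat]

variable (N : ℕ) [NeZero N]

set_option quotPrecheck false in
local notation "F" => ↥(modularFunctionFieldFull N)

theorem exists_frac {z : LaurentSeries ℚ} (hz : z ∈ modularFunctionFieldFull N) :
    ∃ a b : LaurentSeries ℤℓ, b ≠ 0 ∧ z * incl ℓ b = incl ℓ a := by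
  unfold modularFunctionFieldFull at hz
  induction hz using IntermediateField.adjoin_induction with
  | mem y hy =>
    obtain ⟨d, hd, -, rfl⟩ := hy
    haveI := hd
    exact ⟨jqNModC ℤℓ d, 1, one_ne_zero, by
      rw [map_one, mul_one, coeffMap_jqNModC]; rfl⟩
  | algebraMap c =>
    refine ⟨HahnSeries.C ((c.num : ℤ) : ℤℓ), HahnSeries.C ((c.den : ℕ) : ℤℓ), ?_, ?_⟩
    · rw [ne_eq, HahnSeries.C_apply, HahnSeries.single_eq_zero_iff]
      intro h0
      exact c.den_ne_zero (by simpa using congrArg Subtype.val h0)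
    · rw [FLTAgent.ModEq.coeffMap_C, FLTAgent.ModEq.coeffMap_C, FLTAgent.ModEq.algebraMap_eq_C, ← map_mul]
      congr 1
      simp [Rat.mul_den_eq_num]
  | add y y' _ _ h h' =>
    obtain ⟨a, b, hb, e⟩ := h
    obtain ⟨a', b', hb', e'⟩ := h'
    refine ⟨a * b' + a' * b, b * b', mul_ne_zero hb hb', ?_⟩
    rw [map_add, map_mul, map_mul, map_mul, ← e, ← e']; ring
  | inv y _ h =>
    rcases eq_or_ne y 0 with rfl | hy
    · exact ⟨0, 1, one_ne_zero, by simp⟩
    obtain ⟨a, b, hb, e⟩ := h
    refine ⟨b, a, ?_, ?_⟩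
    · rintro rfl
      rw [map_zero, mul_eq_zero] at e
      exact hb ((map_eq_zero_iff _ (incl_injective ℓ)).mp (e.resolve_left hy))
    · rw [← e, ← mul_assoc, inv_mul_cancel₀ hy, one_mul]
  | mul y y' _ _ h h' =>
    obtain ⟨a, b, hb, e⟩ := h
    obtain ⟨a', b', hb', e'⟩ := h'
    refine ⟨a * a', b * b', mul_ne_zero hb hb', ?_⟩
    rw [map_mul, map_mul, ← e, ← e']; ring

theorem coe_algebraMap_F (c : ℤℓ) :
    ((algebraMap ℤℓ F c : F) : LaurentSeries ℚ) = HahnSeries.C (c : ℚ) := by
  rw [RingHom.algebraMap_toAlgebra, RingHom.comp_apply, eq_ratCast, SubfieldClass.coe_ratCast,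
    ← eq_ratCast (HahnSeries.C : ℚ →+* LaurentSeries ℚ)]
  rfl

theorem incl_C (c : ℤℓ) : incl ℓ (HahnSeries.C c) = HahnSeries.C (c : ℚ) :=
  FLTAgent.ModEq.coeffMap_C _ c

variable {N}

/-- Charts with integral generators. -/
def Admissible (S : Set F) : Prop :=
  ∀ s ∈ S, ((s : F) : LaurentSeries ℚ) ∈ (incl ℓ).range

variable (N)

theorem admissible_pair : Admissible ℓ ({jFull N, (jFull N)⁻¹} : Set F) := by
  rintro s (rfl | rfl)
  · exact ⟨jqModC ℤℓ, incl_jqModC ℓ⟩
  · exact ⟨jInvSer ℤℓ, by rw [IntermediateField.coe_inv, coe_jFull]; exact incl_jInvSer ℓ⟩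

variable {N}

theorem Admissible.adjoin {S : Set F} (hS : Admissible ℓ S) {x : F}
    (hx : x ∈ Algebra.adjoin ℤℓ S) : (x : LaurentSeries ℚ) ∈ (incl ℓ).range := by
  induction hx using Algebra.adjoin_induction with
  | mem y hy => exact hS y hy
  | algebraMap c => exact ⟨HahnSeries.C c, by rw [coe_algebraMap_F, incl_C]⟩
  | add y z _ _ h h' => exact add_mem h h'
  | mul y z _ _ h h' => exact mul_mem h h'

theorem Admissible.chart {S : Set F} (hS : Admissible ℓ S) (x : chartAlg N ℓ S) :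
    ((x : F) : LaurentSeries ℚ) ∈ (incl ℓ).range := by
  refine mem_range_of_integral ℓ (exists_frac ℓ N (x : F).2) ?_
  obtain ⟨p, hp, hroot⟩ := (mem_chartAlg_iff N ℓ).mp x.2
  set g : Algebra.adjoin ℤℓ S →+* LaurentSeries ℚ :=
    (algebraMap F (LaurentSeries ℚ)).comp (algebraMap (Algebra.adjoin ℤℓ S) F)
  have hlift : p.map g ∈ Polynomial.lifts (incl ℓ) := by
    rw [Polynomial.lifts_iff_coeff_lifts]
    intro i
    rw [Polynomial.coeff_map]
    exact hS.adjoin ℓ (p.coeff i).2
  obtain ⟨q, hq, -, hqm⟩ := Polynomial.lifts_and_natDegree_eq_and_monic hlift (hp.map _)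
  refine ⟨q, hqm, ?_⟩
  rw [eval₂_eq_eval_map, hq, ← eval₂_eq_eval_map]
  show Polynomial.eval₂ g (algebraMap F (LaurentSeries ℚ) (x : F)) p = 0
  rw [← Polynomial.hom_eval₂, hroot, map_zero]

/-- The `ℤ_(ℓ)`-series of an element of an admissible chart. -/
def series {S : Set F} (hS : Admissible ℓ S) : chartAlg N ℓ S →+* LaurentSeries ℤℓ where
  toFun x := (hS.chart ℓ x).choose
  map_one' := incl_injective ℓ ((hS.chart ℓ 1).choose_spec.trans (map_one _).symm)
  map_zero' := incl_injective ℓ ((hS.chart ℓ 0).choose_spec.trans (map_zero _).symm)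
  map_mul' x y := incl_injective ℓ ((hS.chart ℓ (x * y)).choose_spec.trans (by
    rw [map_mul, (hS.chart ℓ x).choose_spec, (hS.chart ℓ y).choose_spec]; rfl))
  map_add' x y := incl_injective ℓ ((hS.chart ℓ (x + y)).choose_spec.trans (by
    rw [map_add, (hS.chart ℓ x).choose_spec, (hS.chart ℓ y).choose_spec]; rfl))

theorem incl_series {S : Set F} (hS : Admissible ℓ S) (x : chartAlg N ℓ S) :
    incl ℓ (series ℓ hS x) = ((x : F) : LaurentSeries ℚ) := (hS.chart ℓ x).choose_spec

theorem series_algebraMap {S : Set F} (hS : Admissible ℓ S) (c : ℤℓ) :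
    series ℓ hS (algebraMap ℤℓ (chartAlg N ℓ S) c) = HahnSeries.C c := by
  apply incl_injective ℓ
  rw [incl_series, incl_C]
  exact coe_algebraMap_F ℓ N c

/-- The mod `ℓ` series of an element of an admissible chart. -/
def redSeries {S : Set F} (hS : Admissible ℓ S) : chartAlg N ℓ S →+* LaurentSeries (ZMod ℓ) :=
  (coeffMap (red ℓ)).comp (series ℓ hS)

end FLTAgent.Igusa
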