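import Mathlib
import Fermat.Prelude.Def_GaloisRep_Flat

/-!
# The ring `ℤ_(ℓ)`
-/

set_option autoImplicit false

noncomputable section

namespace FLTAgent.Igusa

variable (ℓ : ℕ) [Fact ℓ.Prime]

set_option quotPrecheck false in
local notation "ℤℓ" => ↥(GaloisRep.ratLocalizedAt ℓ)

theorem den_coprime (x : ℤℓ) : (x : ℚ).den.Coprime ℓ := x.2

theorem mem_of_num_div {a : ℤ} {b : ℕ} (hb : b.Coprime ℓ) :
    (a : ℚ) / b ∈ GaloisRep.ratLocalizedAt ℓ := by
  show ((a : ℚ) / b).den.Coprime ℓ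
  refine Nat.Coprime.coprime_dvd_left ?_ hb
  have h := Rat.den_dvd a (b : ℤ)
  rw [Rat.divInt_eq_div, Int.cast_natCast] at h
  exact_mod_cast h

theorem den_ne_zero_zmod (x : ℤℓ) : ((x : ℚ).den : ZMod ℓ) ≠ 0 := by
  intro h
  rw [ZMod.natCast_eq_zero_iff] at h
  exact (Fact.out : ℓ.Prime).ne_one (Nat.eq_one_of_dvd_coprimes (den_coprime ℓ x) h dvd_rfl)

/-- The residue of `x`. -/
def redFun (x : ℤℓ) : ZMod ℓ := ((x : ℚ).num : ZMod ℓ) * ((x : ℚ).den : ZMod ℓ)⁻¹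

theorem redFun_eq {x : ℤℓ} {a : ℤ} {b : ℕ} (hb : (b : ZMod ℓ) ≠ 0)
    (h : (x : ℚ) * b = a) : redFun ℓ x = (a : ZMod ℓ) * (b : ZMod ℓ)⁻¹ := by
  have h2 : (x : ℚ).num * (b : ℤ) = a * ((x : ℚ).den : ℤ) := by
    have : ((x : ℚ).num : ℚ) * b = (a : ℚ) * (x : ℚ).den := by
      rw [← Rat.mul_den_eq_num, ← h]; ring
    exact_mod_cast this
  have h3 : ((x : ℚ).num : ZMod ℓ) * (b : ZMod ℓ) = (a : ZMod ℓ) * ((x : ℚ).den : ZMod ℓ) := by
    have := congrArg (fun z : ℤ => (z : ZMod ℓ)) h2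
    simpa using this
  have hd := den_ne_zero_zmod ℓ x
  unfold redFun
  field_simp
  linear_combination h3

/-- Reduction `ℤ_(ℓ) → 𝔽_ℓ`. -/
def red : ℤℓ →+* ZMod ℓ where
  toFun := redFun ℓ
  map_one' := by simp [redFun]
  map_zero' := by simp [redFun]
  map_mul' x y := by
    rw [redFun_eq ℓ (x := x * y) (a := (x : ℚ).num * (y : ℚ).num)
      (b := (x : ℚ).den * (y : ℚ).den)]
    · unfold redFun; push_cast; rw [mul_inv]; ring
    · push_cast; exact mul_ne_zero (den_ne_zero_zmod ℓ x) (den_ne_zero_zmod ℓ y)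
    · push_cast
      rw [← Rat.mul_den_eq_num, ← Rat.mul_den_eq_num]; ring
  map_add' x y := by
    rw [redFun_eq ℓ (x := x + y)
      (a := (x : ℚ).num * (y : ℚ).den + (y : ℚ).num * (x : ℚ).den)
      (b := (x : ℚ).den * (y : ℚ).den)]
    · unfold redFun
      have hx := den_ne_zero_zmod ℓ x
      have hy := den_ne_zero_zmod ℓ y
      push_cast
      field_simp
    · push_cast; exact mul_ne_zero (den_ne_zero_zmod ℓ x) (den_ne_zero_zmod ℓ y)
    · push_cast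
      rw [← Rat.mul_den_eq_num, ← Rat.mul_den_eq_num]; ring

theorem red_natCast_self : red ℓ (ℓ : ℤℓ) = 0 := by simp

theorem red_surjective : Function.Surjective (red ℓ) := fun c => by
  obtain ⟨z, rfl⟩ := ZMod.intCast_surjective c
  exact ⟨(z : ℤℓ), map_intCast _ z⟩

theorem red_eq_zero_iff (x : ℤℓ) : red ℓ x = 0 ↔ (ℓ : ℤℓ) ∣ x := by
  refine ⟨fun h => ?_, fun ⟨c, hc⟩ => by rw [hc, map_mul, red_natCast_self, zero_mul]⟩
  have h' : ((x : ℚ).num : ZMod ℓ) = 0 := (mul_eq_zero.mp h).resolve_right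
    (inv_ne_zero (den_ne_zero_zmod ℓ x))
  rw [ZMod.intCast_zmod_eq_zero_iff_dvd] at h'
  obtain ⟨c, hc⟩ := h'
  refine ⟨⟨(c : ℚ) / (x : ℚ).den, mem_of_num_div ℓ (den_coprime ℓ x)⟩, Subtype.ext ?_⟩
  rw [Subring.coe_mul, Subring.coe_natCast]
  conv_lhs => rw [← (x : ℚ).num_div_den, hc]
  push_cast
  ring

theorem isUnit_of_red_ne_zero {x : ℤℓ} (h : red ℓ x ≠ 0) : IsUnit x := by
  have hnum : ((x : ℚ).num.natAbs).Coprime ℓ := by
    rw [Nat.coprime_comm, (Fact.out : ℓ.Prime).coprime_iff_not_dvd]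
    intro hd
    apply h
    have : ((x : ℚ).num : ZMod ℓ) = 0 := by
      rw [ZMod.intCast_zmod_eq_zero_iff_dvd]
      exact Int.natCast_dvd.mpr hd
    show redFun ℓ x = 0
    rw [redFun, this, zero_mul]
  have hx : (x : ℚ) ≠ 0 := fun h0 => h (by rw [show x = 0 from Subtype.ext h0, map_zero])
  refine IsUnit.of_mul_eq_one (⟨(x : ℚ)⁻¹, ?_⟩ : ℤℓ) (Subtype.ext (mul_inv_cancel₀ hx))
  show ((x : ℚ)⁻¹).den.Coprime ℓ
  rw [Rat.den_inv_of_ne_zero (q := (x : ℚ)) hx]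
  exact hnum

theorem natCast_irreducible : Irreducible (ℓ : ℤℓ) := by
  have hnu : ¬ IsUnit (ℓ : ℤℓ) := fun h =>
    not_isUnit_zero (red_natCast_self ℓ ▸ h.map (red ℓ))
  refine ⟨hnu, fun a b hab => ?_⟩
  by_contra hc
  push Not at hc
  have ha : red ℓ a = 0 := by_contra fun h => hc.1 (isUnit_of_red_ne_zero ℓ h)
  have hb : red ℓ b = 0 := by_contra fun h => hc.2 (isUnit_of_red_ne_zero ℓ h)
  obtain ⟨a', rfl⟩ := (red_eq_zero_iff ℓ a).mp ha
  obtain ⟨b', rfl⟩ := (red_eq_zero_iff ℓ b).mp hb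
  have hl : (ℓ : ℤℓ) ≠ 0 := by
    intro h0
    have := congrArg Subtype.val h0
    simp [(Fact.out : ℓ.Prime).ne_zero] at this
  have h1 : (ℓ : ℤℓ) * 1 = ℓ * (a' * (ℓ * b')) := by
    rw [mul_one]; linear_combination hab
  exact hnu (IsUnit.of_mul_eq_one (a' * b')
    (by linear_combination -(mul_left_cancel₀ hl h1)))

theorem isDVR : IsDiscreteValuationRing ℤℓ := by
  refine IsDiscreteValuationRing.ofHasUnitMulPowIrreducibleFactorization
    ⟨(ℓ : ℤℓ), natCast_irreducible ℓ, fun {x} hx => ?_⟩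
  induction hk : (x : ℚ).num.natAbs using Nat.strongRecOn generalizing x with
  | ind k ih =>
    by_cases h : red ℓ x = 0
    · obtain ⟨c, rfl⟩ := (red_eq_zero_iff ℓ x).mp h
      have hc : c ≠ 0 := by rintro rfl; simp at hx
      have hnum : ((((ℓ : ℤℓ) * c : ℤℓ)) : ℚ).num = ℓ * (c : ℚ).num := by
        rw [Subring.coe_mul, Subring.coe_natCast, Rat.mul_num, Rat.num_natCast, Rat.den_natCast,
          one_mul]
        have hco : ((ℓ : ℤ) * (c : ℚ).num).natAbs.Coprime (c : ℚ).den := by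
          rw [Int.natAbs_mul, Int.natAbs_natCast]
          exact Nat.Coprime.mul_left ((den_coprime ℓ c).symm) (c : ℚ).reduced
        rw [hco, Nat.cast_one, Int.ediv_one]
      rw [hnum, Int.natAbs_mul, Int.natAbs_natCast] at hk
      have hcpos : 0 < (c : ℚ).num.natAbs := Int.natAbs_pos.mpr
        (Rat.num_ne_zero.mpr fun h0 => hc (Subtype.ext h0))
      obtain ⟨m, hm⟩ := ih (c : ℚ).num.natAbs
        (hk ▸ lt_mul_of_one_lt_left hcpos (Fact.out : ℓ.Prime).one_lt) hc rfl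
      exact ⟨m + 1, by rw [pow_succ']; exact hm.mul_left _⟩
    · exact ⟨0, by rw [pow_zero]; exact (associated_one_iff_isUnit.mpr (isUnit_of_red_ne_zero ℓ h)).symm⟩

theorem isPrincipalIdealRing : IsPrincipalIdealRing ℤℓ := by
  haveI := isDVR ℓ
  infer_instance

end FLTAgent.Igusa
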