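import Fermat.Agent.Igusa.Tensor

/-!
# The special fibre of the Igusa scheme is integral
-/

set_option autoImplicit false

noncomputable section

open AlgebraicGeometry CategoryTheory CategoryTheory.Limits ModularCurve ModularCurve.IgusaScheme

set_option maxHeartbeats 2000000
set_option synthInstance.maxHeartbeats 400000

namespace FLTAgent.Igusa

universe u

/-- Gluing two integral open subschemes with a common point. -/
theorem isIntegral_of_two_charts {P P₁ P₂ : Scheme.{u}} (f₁ : P₁ ⟶ P) (f₂ : P₂ ⟶ P)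
    [IsOpenImmersion f₁] [IsOpenImmersion f₂] [IsIntegral P₁] [IsIntegral P₂]
    (hcov : ∀ x : P, x ∈ Set.range f₁.base ∨ x ∈ Set.range f₂.base)
    (hmeet : ∃ x : P, x ∈ Set.range f₁.base ∧ x ∈ Set.range f₂.base) : IsIntegral P := by
  haveI : IsReduced P := by
    haveI : ∀ x : P, _root_.IsReduced (P.presheaf.stalk x) := fun x => by
      rcases hcov x with ⟨y, rfl⟩ | ⟨y, rfl⟩
      · exact isReduced_of_injective (f₁.stalkMap y).hom
          (asIso (f₁.stalkMap y)).commRingCatIsoToRingEquiv.injective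
      · exact isReduced_of_injective (f₂.stalkMap y).hom
          (asIso (f₂.stalkMap y)).commRingCatIsoToRingEquiv.injective
    exact isReduced_of_isReduced_stalk P
  set U₁ := Set.range f₁.base
  set U₂ := Set.range f₂.base
  have ho₁ : IsOpen U₁ := f₁.isOpenEmbedding.isOpen_range
  have ho₂ : IsOpen U₂ := f₂.isOpenEmbedding.isOpen_range
  have h₁ : IsPreirreducible U₁ := by
    rw [show U₁ = f₁.base '' Set.univ from Set.image_univ.symm]
    exact (PreirreducibleSpace.isPreirreducible_univ).image _ f₁.continuous.continuousOn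
  have h₂ : IsPreirreducible U₂ := by
    rw [show U₂ = f₂.base '' Set.univ from Set.image_univ.symm]
    exact (PreirreducibleSpace.isPreirreducible_univ).image _ f₂.continuous.continuousOn
  obtain ⟨x₀, hx₁, hx₂⟩ := hmeet
  have hW : IsPreirreducible (U₁ ∩ U₂) := h₁.open_subset (ho₁.inter ho₂) Set.inter_subset_left
  have hdense : closure (U₁ ∩ U₂) = Set.univ := by
    refine Set.eq_univ_of_forall fun x => ?_
    rcases hcov x with h | h
    · exact subset_closure_inter_of_isPreirreducible_of_isOpen h₁ ho₂ ⟨x₀, hx₁, hx₂⟩ h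
    · rw [Set.inter_comm]
      exact subset_closure_inter_of_isPreirreducible_of_isOpen h₂ ho₁ ⟨x₀, hx₂, hx₁⟩ h
  haveI : IrreducibleSpace P :=
    { isPreirreducible_univ := hdense ▸ hW.closure
      toNonempty := ⟨x₀⟩ }
  exact isIntegral_of_irreducibleSpace_of_isReduced P

/-- The base change of an affine chart is the spectrum of the tensor product. -/
theorem isIntegral_pullback_chart {R A K : Type} [CommRing R] [CommRing A] [CommRing K]
    [Algebra R A] [Algebra R K] [IsDomain (TensorProduct R A K)] :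
    IsIntegral (pullback (Spec.map (CommRingCat.ofHom (algebraMap R A)))
      (Spec.map (CommRingCat.ofHom (algebraMap R K)))) := by
  haveI : Nonempty ↑(pullback (Spec.map (CommRingCat.ofHom (algebraMap R A)))
      (Spec.map (CommRingCat.ofHom (algebraMap R K)))) :=
    ⟨(pullbackSpecIso R A K).inv.base (Classical.arbitrary _)⟩
  exact isIntegral_of_isOpenImmersion (pullbackSpecIso R A K).hom

variable (N : ℕ) [NeZero N] (ℓ : ℕ) [Fact ℓ.Prime]

set_option quotPrecheck false in
local notation "ℤℓ" => ↥(GaloisRep.ratLocalizedAt ℓ)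

theorem isIntegral_specialFibre (hℓN : ¬ ℓ ∣ N) (K : Type) [Field K] [CharP K ℓ]
    [Algebra ↥(GaloisRep.ratLocalizedAt ℓ) K] :
    IsIntegral ↑(pullback (igusaTo N ℓ)
      (Spec.map (CommRingCat.ofHom (algebraMap ↥(GaloisRep.ratLocalizedAt ℓ) K)))) := by
  set b := Spec.map (CommRingCat.ofHom (algebraMap ℤℓ K))
  haveI := isDomain_tensor ℓ K hℓN (N := N) (s := jFull N) (Or.inl rfl)
  haveI := isDomain_tensor ℓ K hℓN (N := N) (s := (jFull N)⁻¹) (Or.inr rfl)
  haveI hI₁ : IsIntegral (pullback (ιFin N ℓ) (pullback.fst (igusaTo N ℓ) b)) := by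
    let i := pullbackRightPullbackFstIso (igusaTo N ℓ) b (ιFin N ℓ) ≪≫
      pullback.congrHom (ιFin_igusaTo N ℓ) rfl
    haveI := isIntegral_pullback_chart (R := ℤℓ) (A := chartAlgFin N ℓ) (K := K)
    haveI : Nonempty ↑(pullback (ιFin N ℓ) (pullback.fst (igusaTo N ℓ) b)) :=
      ⟨i.inv.base (Classical.arbitrary _)⟩
    exact isIntegral_of_isOpenImmersion i.hom
  haveI hI₂ : IsIntegral (pullback (ιInf N ℓ) (pullback.fst (igusaTo N ℓ) b)) := by
    let i := pullbackRightPullbackFstIso (igusaTo N ℓ) b (ιInf N ℓ) ≪≫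
      pullback.congrHom (ιInf_igusaTo N ℓ) rfl
    haveI := isIntegral_pullback_chart (R := ℤℓ) (A := chartAlgInf N ℓ) (K := K)
    haveI : Nonempty ↑(pullback (ιInf N ℓ) (pullback.fst (igusaTo N ℓ) b)) :=
      ⟨i.inv.base (Classical.arbitrary _)⟩
    exact isIntegral_of_isOpenImmersion i.hom
  refine isIntegral_of_two_charts (pullback.snd (ιFin N ℓ) (pullback.fst (igusaTo N ℓ) b))
    (pullback.snd (ιInf N ℓ) (pullback.fst (igusaTo N ℓ) b)) (fun x => ?_) ?_
  · rw [IsOpenImmersion.range_pullbackSnd, IsOpenImmersion.range_pullbackSnd]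
    exact mem_range_ιFin_or_mem_range_ιInf N ℓ _
  · haveI : Nontrivial (TensorProduct ℤℓ (chartAlgMid N ℓ) K) :=
      nontrivial_tensor ℓ K (admissible_pair ℓ N)
    let m := Spec.map (CommRingCat.ofHom (algebraMap ℤℓ (chartAlgMid N ℓ)))
    have hm : (fFin N ℓ ≫ ιFin N ℓ) ≫ igusaTo N ℓ = m := by
      rw [Category.assoc, ιFin_igusaTo, ← Spec.map_comp, ← CommRingCat.ofHom_comp]
      exact congrArg (fun f => Spec.map (CommRingCat.ofHom f)) (inclFin N ℓ).comp_algebraMap
    let z : ↑(pullback m b) :=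
      (pullbackSpecIso ℤℓ (chartAlgMid N ℓ) K).inv.base (Classical.arbitrary _)
    let g : pullback m b ⟶ pullback (igusaTo N ℓ) b :=
      pullback.lift (pullback.fst m b ≫ fFin N ℓ ≫ ιFin N ℓ) (pullback.snd m b)
        (by rw [Category.assoc, hm, pullback.condition])
    have hg : g ≫ pullback.fst (igusaTo N ℓ) b = pullback.fst m b ≫ fFin N ℓ ≫ ιFin N ℓ :=
      pullback.lift_fst _ _ _
    refine ⟨g.base z, ?_, ?_⟩ <;> rw [IsOpenImmersion.range_pullbackSnd]
    · show (g ≫ pullback.fst (igusaTo N ℓ) b).base z ∈ Set.range (ιFin N ℓ).base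
      rw [hg]
      exact ⟨(fFin N ℓ).base ((pullback.fst m b).base z), rfl⟩
    · show (g ≫ pullback.fst (igusaTo N ℓ) b).base z ∈ Set.range (ιInf N ℓ).base
      rw [hg, glue_condition]
      exact ⟨(fInf N ℓ).base ((pullback.fst m b).base z), rfl⟩

end FLTAgent.Igusa
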