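import Fermat.Agent.Igusa.Chart

/-!
# The special fibre of each chart is a domain
-/

set_option autoImplicit false

noncomputable section

open HahnSeries ModularCurve ModularCurve.IgusaScheme TensorProduct

set_option maxHeartbeats 2000000
set_option synthInstance.maxHeartbeats 400000

namespace FLTAgent.Igusa

variable (ℓ : ℕ) [Fact ℓ.Prime] {N : ℕ} [NeZero N]

set_option quotPrecheck false in
local notation "ℤℓ" => ↥(GaloisRep.ratLocalizedAt ℓ)

set_option quotPrecheck false in
local notation "F" => ↥(modularFunctionFieldFull N)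

variable (K : Type) [Field K] [CharP K ℓ] [Algebra ↥(GaloisRep.ratLocalizedAt ℓ) K]

/-- `𝔽_ℓ → K`. -/
def toK : ZMod ℓ →+* K := ZMod.castHom dvd_rfl K

theorem algebraMap_eq_toK (x : ℤℓ) : algebraMap ℤℓ K x = toK ℓ K (red ℓ x) := by
  have hd : (((x : ℚ).den : ℕ) : K) ≠ 0 := by
    rw [ne_eq, CharP.cast_eq_zero_iff K ℓ, ← ZMod.natCast_eq_zero_iff]
    exact den_ne_zero_zmod ℓ x
  have h : x * (((x : ℚ).den : ℕ) : ℤℓ) = (((x : ℚ).num : ℤ) : ℤℓ) := by
    apply Subtype.ext
    rw [Subring.coe_mul, Subring.coe_natCast, Subring.coe_intCast, Rat.mul_den_eq_num]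
  have h1 := congrArg (algebraMap ℤℓ K) h
  have h2 := congrArg ((toK ℓ K).comp (red ℓ)) h
  rw [map_mul, map_natCast, map_intCast] at h1 h2
  exact mul_right_cancel₀ hd (h1.trans h2.symm)

variable {S : Set ↥(modularFunctionFieldFull N)} (hS : Admissible ℓ S)

/-- The expansion with coefficients in `K`. -/
def kSeries : chartAlg N ℓ S →+* LaurentSeries K :=
  (coeffMap (toK ℓ K)).comp (redSeries ℓ hS)

theorem kSeries_algebraMap (c : ℤℓ) :
    kSeries ℓ K hS (algebraMap ℤℓ (chartAlg N ℓ S) c) = HahnSeries.C (algebraMap ℤℓ K c) := by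
  rw [kSeries, redSeries, RingHom.comp_apply, RingHom.comp_apply, series_algebraMap,
    FLTAgent.ModEq.coeffMap_C, FLTAgent.ModEq.coeffMap_C, algebraMap_eq_toK]

/-- `A ⊗ K → K((q))`. -/
def tensorHom : chartAlg N ℓ S ⊗[ℤℓ] K →+* LaurentSeries K :=
  letI : Algebra ℤℓ (LaurentSeries K) :=
    ((HahnSeries.C : K →+* LaurentSeries K).comp (algebraMap ℤℓ K)).toAlgebra
  (Algebra.TensorProduct.productMap
    ({ kSeries ℓ K hS with commutes' := kSeries_algebraMap ℓ K hS } :
      chartAlg N ℓ S →ₐ[ℤℓ] LaurentSeries K)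
    ({ (HahnSeries.C : K →+* LaurentSeries K) with commutes' := fun _ => rfl } :
      K →ₐ[ℤℓ] LaurentSeries K)).toRingHom

theorem tensorHom_tmul (a : chartAlg N ℓ S) (k : K) :
    tensorHom ℓ K hS (a ⊗ₜ k) = kSeries ℓ K hS a * HahnSeries.C k := by
  simp [tensorHom]

include hS in
theorem nontrivial_tensor : Nontrivial (chartAlg N ℓ S ⊗[ℤℓ] K) :=
  (tensorHom ℓ K hS).domain_nontrivial

theorem tensorHom_injective
    (hker : ∀ a : chartAlg N ℓ S, redSeries ℓ hS a = 0 →
      ∃ b : chartAlg N ℓ S, a = (ℓ : ℤℓ) • b) :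
    Function.Injective (tensorHom ℓ K hS) := by
  classical
  letI : Algebra (ZMod ℓ) K := ZMod.algebra K ℓ
  let e := Module.Basis.ofVectorSpace (ZMod ℓ) K
  let g : (Module.Basis.ofVectorSpaceIndex (ZMod ℓ) K →₀ chartAlg N ℓ S) →+
      chartAlg N ℓ S ⊗[ℤℓ] K :=
    Finsupp.liftAddHom fun i =>
      { toFun := fun a => a ⊗ₜ[ℤℓ] e i
        map_zero' := TensorProduct.zero_tmul _ _
        map_add' := fun a b => TensorProduct.add_tmul a b (e i) }
  have hg : ∀ z, ∃ f, g f = z := by
    intro z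
    induction z using TensorProduct.induction_on with
    | zero => exact ⟨0, map_zero g⟩
    | tmul a k =>
      refine ⟨∑ i ∈ (e.repr k).support,
        Finsupp.single i ((Function.surjInv (red_surjective ℓ) (e.repr k i)) • a), ?_⟩
      rw [map_sum]
      conv_rhs => rw [← e.linearCombination_repr k, Finsupp.linearCombination_apply,
        Finsupp.sum, TensorProduct.tmul_sum]
      refine Finset.sum_congr rfl fun i _ => ?_
      simp only [g, Finsupp.liftAddHom_apply_single, AddMonoidHom.coe_mk, ZeroHom.coe_mk]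
      rw [TensorProduct.smul_tmul, Algebra.smul_def, algebraMap_eq_toK,
        Function.surjInv_eq (red_surjective ℓ), Algebra.smul_def,
        RingHom.ext_zmod (toK ℓ K) (algebraMap (ZMod ℓ) K)]
    | add z z' h h' =>
      obtain ⟨f, rfl⟩ := h
      obtain ⟨f', rfl⟩ := h'
      exact ⟨f + f', map_add g f f'⟩
  refine (RingHom.injective_iff_ker_eq_bot _).mpr ((Submodule.eq_bot_iff _).mpr fun z hz => ?_)
  rw [RingHom.mem_ker] at hz
  obtain ⟨f, rfl⟩ := hg z
  have hf : ∀ i ∈ f.support, redSeries ℓ hS (f i) = 0 := by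
    intro i hi
    ext k
    rw [HahnSeries.coeff_zero]
    refine linearIndependent_iff'.mp e.linearIndependent f.support
      (fun j => (redSeries ℓ hS (f j)).coeff k) ?_ i hi
    have h := congrArg (fun q => HahnSeries.coeff q k) hz
    simp only [g, Finsupp.liftAddHom_apply, Finsupp.sum, map_sum, AddMonoidHom.coe_mk, ZeroHom.coe_mk,
      tensorHom_tmul, HahnSeries.coeff_sum, HahnSeries.coeff_zero] at h
    refine Eq.trans (Finset.sum_congr rfl fun j _ => ?_) h
    rw [Algebra.smul_def, kSeries, RingHom.comp_apply,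
      RingHom.ext_zmod (toK ℓ K) (algebraMap (ZMod ℓ) K),
      mul_comm _ (HahnSeries.C _), HahnSeries.C_apply, HahnSeries.coeff_single_zero_mul,
      coeffMap_coeff]
    exact mul_comm _ _
  simp only [g, Finsupp.liftAddHom_apply, Finsupp.sum, AddMonoidHom.coe_mk, ZeroHom.coe_mk]
  refine Finset.sum_eq_zero fun i hi => ?_
  obtain ⟨b, hb⟩ := hker _ (hf i hi)
  rw [hb, TensorProduct.smul_tmul, Algebra.smul_def, algebraMap_eq_toK, red_natCast_self,
    map_zero, zero_mul, TensorProduct.tmul_zero]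

theorem isDomain_tensor (hℓN : ¬ ℓ ∣ N) {s : F} (hs : s = jFull N ∨ s = (jFull N)⁻¹) :
    IsDomain (chartAlg N ℓ ({s} : Set F) ⊗[ℤℓ] K) := by
  have hS : Admissible ℓ ({s} : Set F) := fun t ht => admissible_pair ℓ N t (by
    rcases hs with rfl | rfl <;> simp [Set.mem_singleton_iff.mp ht])
  exact Function.Injective.isDomain (tensorHom ℓ K hS) (tensorHom_injective ℓ K hS fun a ha =>
    exists_smul_of_redSeries_eq_zero ℓ N hℓN hs hS a ha)

end FLTAgent.Igusa
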